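import Mathlib
import Fermat.Agent.MUL.Orig.F1.Defs

section MergeWrap_F1_Height -- from F1/Height.lean

/-!
# F1 / Height: the two bookkeeping lemmas L1, L3 (owner: helper64)
-/

set_option autoImplicit false

open Polynomial

namespace Fermat.Agent.F1

variable {k : Type*} [Field k]

/-- multiplying by a unit does not change `natDegree` -/
theorem height_natDegree_mul_of_mul_eq_one (a l m : k[X]) (h : l * m = 1) :
    (a * l).natDegree = a.natDegree := by
  by_cases ha : a = 0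
  · simp [ha]
  have hl : l ≠ 0 := by
    rintro rfl
    simp at h
  have hu : IsUnit l := .of_mul_eq_one m h
  rw [Polynomial.natDegree_mul ha hl, Polynomial.natDegree_eq_zero_of_isUnit hu, add_zero]

/-- the top coefficients (at the height) of a coprime pair do not both vanish -/
theorem height_coeff_hpair_ne_zero (f g : k[X]) (h : IsCoprime f g) :
    f.coeff (hpair f g) ≠ 0 ∨ g.coeff (hpair f g) ≠ 0 := by
  unfold hpair
  rcases le_total f.natDegree g.natDegree with hle | hle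
  · rw [max_eq_right hle]
    by_cases hg : g = 0
    · subst hg
      have hf : IsUnit f := isCoprime_zero_right.mp h
      left
      rw [Polynomial.natDegree_zero]
      have h0 : f.natDegree = 0 := Polynomial.natDegree_eq_zero_of_isUnit hf
      have hne : f ≠ 0 := hf.ne_zero
      rw [← h0]
      exact Polynomial.leadingCoeff_ne_zero.mpr hne
    · right
      exact Polynomial.leadingCoeff_ne_zero.mpr hg
  · rw [max_eq_left hle]
    by_cases hf : f = 0
    · subst hf
      have hg : IsUnit g := isCoprime_zero_left.mp h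
      right
      rw [Polynomial.natDegree_zero]
      have h0 : g.natDegree = 0 := Polynomial.natDegree_eq_zero_of_isUnit hg
      have hne : g ≠ 0 := hg.ne_zero
      rw [← h0]
      exact Polynomial.leadingCoeff_ne_zero.mpr hne
    · left
      exact Polynomial.leadingCoeff_ne_zero.mpr hf

/-- L1: `[1 : z₁+z₂ : z₁z₂]` has height `h(z₁)+h(z₂)`. -/
theorem cop3_sym (f₁ g₁ f₂ g₂ : k[X]) (h₁ : IsCoprime f₁ g₁) (h₂ : IsCoprime f₂ g₂) :
    Cop3 (g₁ * g₂) (f₁ * g₂ + f₂ * g₁) (f₁ * f₂) := by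
  obtain ⟨U₁, V₁, h1⟩ := (h₁.pow (m := 2) (n := 2))
  obtain ⟨U₂, V₂, h2⟩ := (h₂.pow (m := 2) (n := 2))
  refine ⟨V₁ * V₂ * (g₁ * g₂) - (U₁ * V₂ + V₁ * U₂) * (f₁ * f₂),
    U₁ * V₂ * f₁ * g₂ + V₁ * U₂ * g₁ * f₂, U₁ * U₂ * (f₁ * f₂), ?_⟩
  linear_combination (U₂ * f₂ ^ 2 + V₂ * g₂ ^ 2) * h1 + h2

theorem htriple_sym (f₁ g₁ f₂ g₂ : k[X]) (h₁ : IsCoprime f₁ g₁) (h₂ : IsCoprime f₂ g₂) :
    htriple (g₁ * g₂) (f₁ * g₂ + f₂ * g₁) (f₁ * f₂) = hpair f₁ g₁ + hpair f₂ g₂ := by
  have hf₁ : f₁.natDegree ≤ hpair f₁ g₁ := le_max_left _ _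
  have hg₁ : g₁.natDegree ≤ hpair f₁ g₁ := le_max_right _ _
  have hf₂ : f₂.natDegree ≤ hpair f₂ g₂ := le_max_left _ _
  have hg₂ : g₂.natDegree ≤ hpair f₂ g₂ := le_max_right _ _
  set d₁ := hpair f₁ g₁ with hd₁
  set d₂ := hpair f₂ g₂ with hd₂
  have ha : (g₁ * g₂).natDegree ≤ d₁ + d₂ :=
    Polynomial.natDegree_mul_le.trans (add_le_add hg₁ hg₂)
  have hc : (f₁ * f₂).natDegree ≤ d₁ + d₂ :=
    Polynomial.natDegree_mul_le.trans (add_le_add hf₁ hf₂)
  have hb : (f₁ * g₂ + f₂ * g₁).natDegree ≤ d₁ + d₂ := by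
    refine (Polynomial.natDegree_add_le _ _).trans (max_le ?_ ?_)
    · exact Polynomial.natDegree_mul_le.trans (add_le_add hf₁ hg₂)
    · exact Polynomial.natDegree_mul_le.trans (by rw [add_comm d₁ d₂]; exact add_le_add hf₂ hg₁)
  have ca : (g₁ * g₂).coeff (d₁ + d₂) = g₁.coeff d₁ * g₂.coeff d₂ :=
    Polynomial.coeff_mul_add_eq_of_natDegree_le hg₁ hg₂
  have cc : (f₁ * f₂).coeff (d₁ + d₂) = f₁.coeff d₁ * f₂.coeff d₂ :=
    Polynomial.coeff_mul_add_eq_of_natDegree_le hf₁ hf₂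
  have cb : (f₁ * g₂ + f₂ * g₁).coeff (d₁ + d₂) =
      f₁.coeff d₁ * g₂.coeff d₂ + f₂.coeff d₂ * g₁.coeff d₁ := by
    rw [Polynomial.coeff_add, Polynomial.coeff_mul_add_eq_of_natDegree_le hf₁ hg₂]
    congr 1
    rw [add_comm d₁ d₂]
    exact Polynomial.coeff_mul_add_eq_of_natDegree_le hf₂ hg₁
  have key : (g₁ * g₂).coeff (d₁ + d₂) ≠ 0 ∨ (f₁ * g₂ + f₂ * g₁).coeff (d₁ + d₂) ≠ 0 ∨
      (f₁ * f₂).coeff (d₁ + d₂) ≠ 0 := by
    by_contra hcon
    push Not at hcon
    obtain ⟨e1, e2, e3⟩ := hcon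
    rw [ca] at e1
    rw [cb] at e2
    rw [cc] at e3
    have n1 := height_coeff_hpair_ne_zero f₁ g₁ h₁
    have n2 := height_coeff_hpair_ne_zero f₂ g₂ h₂
    rw [← hd₁] at n1
    rw [← hd₂] at n2
    rcases mul_eq_zero.mp e1 with z | z
    · -- g₁ top coeff = 0, so f₁ top coeff ≠ 0
      have nf₁ : f₁.coeff d₁ ≠ 0 := by
        rcases n1 with n | n
        · exact n
        · exact absurd z n
      have zf₂ : f₂.coeff d₂ = 0 := by
        rcases mul_eq_zero.mp e3 with w | w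
        · exact absurd w nf₁
        · exact w
      have ng₂ : g₂.coeff d₂ ≠ 0 := by
        rcases n2 with n | n
        · exact absurd zf₂ n
        · exact n
      rw [z, zf₂, zero_mul, add_zero] at e2
      exact (mul_ne_zero nf₁ ng₂) e2
    · have nf₂ : f₂.coeff d₂ ≠ 0 := by
        rcases n2 with n | n
        · exact n
        · exact absurd z n
      have zf₁ : f₁.coeff d₁ = 0 := by
        rcases mul_eq_zero.mp e3 with w | w
        · exact w
        · exact absurd w nf₂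
      have ng₁ : g₁.coeff d₁ ≠ 0 := by
        rcases n1 with n | n
        · exact absurd zf₁ n
        · exact n
      rw [z, zf₁, zero_mul, zero_add] at e2
      exact (mul_ne_zero nf₂ ng₁) e2
  apply le_antisymm
  · exact max_le ha (max_le hb hc)
  · rcases key with h | h | h
    · exact (Polynomial.le_natDegree_of_ne_zero h).trans (le_max_left _ _)
    · exact (Polynomial.le_natDegree_of_ne_zero h).trans
        ((le_max_left _ _).trans (le_max_right _ _))
    · exact (Polynomial.le_natDegree_of_ne_zero h).trans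
        ((le_max_right _ _).trans (le_max_right _ _))

/-- L3: proportional coprime triples have the same height. -/
theorem htriple_eq_of_prop (a b c a' b' c' : k[X]) (h : Cop3 a b c) (h' : Cop3 a' b' c')
    (hab : a * b' = a' * b) (hac : a * c' = a' * c) (hbc : b * c' = b' * c) :
    htriple a b c = htriple a' b' c' := by
  obtain ⟨u, v, w, e⟩ := h
  obtain ⟨u', v', w', e'⟩ := h'
  set l := u * a' + v * b' + w * c' with hl
  set m := u' * a + v' * b + w' * c with hm
  have ea : a' = a * l := by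
    rw [hl]; linear_combination (-a') * e - v * hab - w * hac
  have eb : b' = b * l := by
    rw [hl]; linear_combination (-b') * e + u * hab - w * hbc
  have ec : c' = c * l := by
    rw [hl]; linear_combination (-c') * e + u * hac + v * hbc
  have hlm : l * m = 1 := by
    have : m * l = 1 := by
      calc m * l = u' * (a * l) + v' * (b * l) + w' * (c * l) := by rw [hm]; ring
        _ = u' * a' + v' * b' + w' * c' := by rw [← ea, ← eb, ← ec]
        _ = 1 := e'
    rw [mul_comm]; exact this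
  unfold htriple
  rw [ea, eb, ec, height_natDegree_mul_of_mul_eq_one a l m hlm,
    height_natDegree_mul_of_mul_eq_one b l m hlm, height_natDegree_mul_of_mul_eq_one c l m hlm]

/-- L3 for pairs. -/
theorem hpair_eq_of_prop (f g f' g' : k[X]) (h : IsCoprime f g) (h' : IsCoprime f' g')
    (hfg : f * g' = f' * g) : hpair f g = hpair f' g' := by
  obtain ⟨u, v, e⟩ := h
  obtain ⟨u', v', e'⟩ := h'
  set l := u * f' + v * g' with hl
  set m := u' * f + v' * g with hm
  have ea : f' = f * l := by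
    rw [hl]; linear_combination (-f') * e - v * hfg
  have eb : g' = g * l := by
    rw [hl]; linear_combination (-g') * e + u * hfg
  have hlm : l * m = 1 := by
    have : m * l = 1 := by
      calc m * l = u' * (f * l) + v' * (g * l) := by rw [hm]; ring
        _ = u' * f' + v' * g' := by rw [← ea, ← eb]
        _ = 1 := e'
    rw [mul_comm]; exact this
  unfold hpair
  rw [ea, eb, height_natDegree_mul_of_mul_eq_one f l m hlm,
    height_natDegree_mul_of_mul_eq_one g l m hlm]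

end Fermat.Agent.F1
end MergeWrap_F1_Height

section MergeWrap_F1_BasePoint -- from F1/BasePoint.lean

/-!
# F1 / BasePoint: L2, Mathlib's `addSubMap` doubles heights exactly (owner: helper88)

Use `WeierstrassCurve.addSubMapCoeff_condition` / `addSubMap_ne_zero` (Mathlib) :
* coprimality: the certificate shows `w i ^ 4` lies in the ideal generated by the three values;
* degree: the vector of `s`-th coefficients (`s = htriple w`) is nonzero, and the `2s`-th coefficient of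
  `addSubMap i (w)` is `addSubMap i` of that vector.
-/

set_option autoImplicit false
set_option linter.unusedSimpArgs false

open Polynomial

namespace Fermat.Agent.F1

variable {k : Type*} [Field k]

/-- explicit values of `addSubMap` at a triple of polynomials -/
theorem bp_aeval_addSubMap_zero (W : WeierstrassCurve k) (w : Fin 3 → k[X]) :
    MvPolynomial.aeval w (W.addSubMap 0) =
      w 0 ^ 2 - C W.b₄ * w 0 * w 2 - C W.b₆ * w 1 * w 2 - C W.b₈ * w 2 ^ 2 := by
  simp [WeierstrassCurve.addSubMap, MvPolynomial.algebraMap_eq]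

theorem bp_aeval_addSubMap_one (W : WeierstrassCurve k) (w : Fin 3 → k[X]) :
    MvPolynomial.aeval w (W.addSubMap 1) =
      C 2 * w 1 * w 0 + C W.b₂ * w 0 * w 2 + C W.b₄ * w 1 * w 2 + C W.b₆ * w 2 ^ 2 := by
  simp [WeierstrassCurve.addSubMap, MvPolynomial.algebraMap_eq]

theorem bp_aeval_addSubMap_two (W : WeierstrassCurve k) (w : Fin 3 → k[X]) :
    MvPolynomial.aeval w (W.addSubMap 2) = w 1 ^ 2 - C 4 * w 0 * w 2 := by
  simp [WeierstrassCurve.addSubMap, MvPolynomial.algebraMap_eq]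

/-- `aeval` of `addSubMap` is `eval` of the `addSubMap` of the base-changed curve. -/
theorem bp_aeval_eq_eval_map (W : WeierstrassCurve k) (w : Fin 3 → k[X]) (i : Fin 3) :
    MvPolynomial.aeval w (W.addSubMap i) =
      MvPolynomial.eval w ((W.map (C : k →+* k[X])).addSubMap i) := by
  have h2 : (C (2 : k) : k[X]) = 2 := map_ofNat C 2
  have h4 : (C (4 : k) : k[X]) = 4 := map_ofNat C 4
  fin_cases i
  · simp [WeierstrassCurve.addSubMap, MvPolynomial.algebraMap_eq]
  · simp [WeierstrassCurve.addSubMap, MvPolynomial.algebraMap_eq, h2]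
  · simp [WeierstrassCurve.addSubMap, MvPolynomial.algebraMap_eq, h4]


theorem bp_cop3_iff_span (a b c : k[X]) : Cop3 a b c ↔ Ideal.span ({a, b, c} : Set k[X]) = ⊤ := by
  constructor
  · rintro ⟨u, v, w, h⟩
    rw [Ideal.eq_top_iff_one, ← h]
    refine Ideal.add_mem _ (Ideal.add_mem _ ?_ ?_) ?_
    · exact Ideal.mul_mem_left _ _ (Ideal.subset_span (by simp))
    · exact Ideal.mul_mem_left _ _ (Ideal.subset_span (by simp))
    · exact Ideal.mul_mem_left _ _ (Ideal.subset_span (by simp))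
  · intro h
    have h1 : (1 : k[X]) ∈ Ideal.span ({a, b, c} : Set k[X]) := by rw [h]; trivial
    rw [Ideal.mem_span_insert] at h1
    obtain ⟨u, z, hz, h1⟩ := h1
    rw [Ideal.mem_span_insert] at hz
    obtain ⟨v, z', hz', hz⟩ := hz
    rw [Ideal.mem_span_singleton'] at hz'
    obtain ⟨w, hw⟩ := hz'
    exact ⟨u, v, w, by rw [h1, hz, ← hw]; ring⟩

/-- the certificate: `w i ^ 4` is in the ideal generated by the values of `addSubMap`. -/
theorem bp_pow_four_mem (W : WeierstrassCurve k) [W.IsElliptic] (w : Fin 3 → k[X]) (i : Fin 3) :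
    w i ^ 4 ∈ Ideal.span ({MvPolynomial.aeval w (W.addSubMap 0),
      MvPolynomial.aeval w (W.addSubMap 1), MvPolynomial.aeval w (W.addSubMap 2)} : Set k[X]) := by
  have key := WeierstrassCurve.addSubMapCoeff_condition (W.map (C : k →+* k[X])) w i
  rw [← key]
  refine Ideal.sum_mem _ fun j _ => ?_
  rw [← bp_aeval_eq_eval_map]
  refine Ideal.mul_mem_left _ _ (Ideal.subset_span ?_)
  fin_cases j <;> simp

theorem cop3_addSubMap (W : WeierstrassCurve k) [W.IsElliptic] (w : Fin 3 → k[X])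
    (h : Cop3 (w 0) (w 1) (w 2)) :
    Cop3 (MvPolynomial.aeval w (W.addSubMap 0)) (MvPolynomial.aeval w (W.addSubMap 1))
      (MvPolynomial.aeval w (W.addSubMap 2)) := by
  rw [bp_cop3_iff_span]
  rw [← Ideal.radical_eq_top, Ideal.eq_top_iff_one]
  obtain ⟨u, v, t, huv⟩ := h
  rw [← huv]
  have hm : ∀ i, w i ∈ (Ideal.span ({MvPolynomial.aeval w (W.addSubMap 0),
      MvPolynomial.aeval w (W.addSubMap 1), MvPolynomial.aeval w (W.addSubMap 2)} :
      Set k[X])).radical := fun i => ⟨4, bp_pow_four_mem W w i⟩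
  exact Ideal.add_mem _ (Ideal.add_mem _ (Ideal.mul_mem_left _ _ (hm 0))
    (Ideal.mul_mem_left _ _ (hm 1))) (Ideal.mul_mem_left _ _ (hm 2))


section Degree

variable {s : ℕ} {p q : k[X]}

theorem bp_natDegree_Cmul2 (c : k) (hp : p.natDegree ≤ s) (hq : q.natDegree ≤ s) :
    (C c * p * q).natDegree ≤ s + s := by
  rw [mul_assoc]
  exact (natDegree_C_mul_le _ _).trans (natDegree_mul_le_of_le hp hq)

theorem bp_natDegree_sq (hp : p.natDegree ≤ s) : (p ^ 2).natDegree ≤ s + s := by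
  rw [pow_two]
  exact natDegree_mul_le_of_le hp hp

theorem bp_natDegree_Cmulsq (c : k) (hp : p.natDegree ≤ s) : (C c * p ^ 2).natDegree ≤ s + s :=
  (natDegree_C_mul_le _ _).trans (bp_natDegree_sq hp)

theorem bp_natDegree_sub_le {n : ℕ} (hp : p.natDegree ≤ n) (hq : q.natDegree ≤ n) :
    (p - q).natDegree ≤ n :=
  (natDegree_sub_le p q).trans (max_le hp hq)

theorem bp_coeff_Cmul2 (c : k) (hp : p.natDegree ≤ s) (hq : q.natDegree ≤ s) :
    (C c * p * q).coeff (s + s) = c * p.coeff s * q.coeff s := by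
  rw [mul_assoc, coeff_C_mul, coeff_mul_add_eq_of_natDegree_le hp hq, mul_assoc]

theorem bp_coeff_sq (hp : p.natDegree ≤ s) : (p ^ 2).coeff (s + s) = p.coeff s ^ 2 := by
  rw [pow_two, coeff_mul_add_eq_of_natDegree_le hp hp, pow_two]

theorem bp_coeff_Cmulsq (c : k) (hp : p.natDegree ≤ s) :
    (C c * p ^ 2).coeff (s + s) = c * p.coeff s ^ 2 := by
  rw [coeff_C_mul, bp_coeff_sq hp]

end Degree

section Top

variable (W : WeierstrassCurve k) (w : Fin 3 → k[X]) {s : ℕ}

theorem bp_natDegree_le_zero (hw : ∀ i, (w i).natDegree ≤ s) :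
    (MvPolynomial.aeval w (W.addSubMap 0)).natDegree ≤ s + s := by
  rw [bp_aeval_addSubMap_zero]
  exact bp_natDegree_sub_le (bp_natDegree_sub_le (bp_natDegree_sub_le
    (bp_natDegree_sq (hw 0)) (bp_natDegree_Cmul2 _ (hw 0) (hw 2)))
    (bp_natDegree_Cmul2 _ (hw 1) (hw 2))) (bp_natDegree_Cmulsq _ (hw 2))

theorem bp_natDegree_le_one (hw : ∀ i, (w i).natDegree ≤ s) :
    (MvPolynomial.aeval w (W.addSubMap 1)).natDegree ≤ s + s := by
  rw [bp_aeval_addSubMap_one]
  exact natDegree_add_le_of_degree_le (natDegree_add_le_of_degree_le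
    (natDegree_add_le_of_degree_le
    (bp_natDegree_Cmul2 _ (hw 1) (hw 0)) (bp_natDegree_Cmul2 _ (hw 0) (hw 2)))
    (bp_natDegree_Cmul2 _ (hw 1) (hw 2))) (bp_natDegree_Cmulsq _ (hw 2))

theorem bp_natDegree_le_two (hw : ∀ i, (w i).natDegree ≤ s) :
    (MvPolynomial.aeval w (W.addSubMap 2)).natDegree ≤ s + s := by
  rw [bp_aeval_addSubMap_two]
  exact bp_natDegree_sub_le (bp_natDegree_sq (hw 1)) (bp_natDegree_Cmul2 _ (hw 0) (hw 2))

theorem bp_coeff_zero (hw : ∀ i, (w i).natDegree ≤ s) :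
    (MvPolynomial.aeval w (W.addSubMap 0)).coeff (s + s) =
      MvPolynomial.eval (fun i => (w i).coeff s) (W.addSubMap 0) := by
  rw [bp_aeval_addSubMap_zero]
  simp only [coeff_sub, bp_coeff_sq (hw 0), bp_coeff_Cmul2 _ (hw 0) (hw 2),
    bp_coeff_Cmul2 _ (hw 1) (hw 2), bp_coeff_Cmulsq _ (hw 2)]
  simp [WeierstrassCurve.addSubMap]

theorem bp_coeff_one (hw : ∀ i, (w i).natDegree ≤ s) :
    (MvPolynomial.aeval w (W.addSubMap 1)).coeff (s + s) =
      MvPolynomial.eval (fun i => (w i).coeff s) (W.addSubMap 1) := by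
  rw [bp_aeval_addSubMap_one]
  simp only [coeff_add, bp_coeff_Cmul2 _ (hw 1) (hw 0), bp_coeff_Cmul2 _ (hw 0) (hw 2),
    bp_coeff_Cmul2 _ (hw 1) (hw 2), bp_coeff_Cmulsq _ (hw 2)]
  simp [WeierstrassCurve.addSubMap]

theorem bp_coeff_two (hw : ∀ i, (w i).natDegree ≤ s) :
    (MvPolynomial.aeval w (W.addSubMap 2)).coeff (s + s) =
      MvPolynomial.eval (fun i => (w i).coeff s) (W.addSubMap 2) := by
  rw [bp_aeval_addSubMap_two]
  simp only [coeff_sub, bp_coeff_sq (hw 1), bp_coeff_Cmul2 _ (hw 0) (hw 2)]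
  simp [WeierstrassCurve.addSubMap]

end Top


theorem bp_natDegree_le_htriple (w : Fin 3 → k[X]) (i : Fin 3) :
    (w i).natDegree ≤ htriple (w 0) (w 1) (w 2) := by
  unfold htriple
  fin_cases i
  · exact le_max_left _ _
  · exact le_trans (le_max_left _ _) (le_max_right _ _)
  · exact le_trans (le_max_right _ _) (le_max_right _ _)

/-- the vector of top coefficients of a coprime triple is nonzero -/
theorem bp_top_ne_zero (w : Fin 3 → k[X]) (h : Cop3 (w 0) (w 1) (w 2)) :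
    (fun i => (w i).coeff (htriple (w 0) (w 1) (w 2))) ≠ 0 := by
  intro h0
  have hc : ∀ i, (w i).coeff (htriple (w 0) (w 1) (w 2)) = 0 := fun i => congrFun h0 i
  set s := htriple (w 0) (w 1) (w 2) with hs
  have hle : ∀ i, (w i).natDegree ≤ s := bp_natDegree_le_htriple w
  -- every `w i` has `natDegree < s` or is zero
  have hz : ∀ i, w i = 0 ∨ (w i).natDegree < s := by
    intro i
    by_cases hi : w i = 0
    · exact Or.inl hi
    · right
      refine lt_of_le_of_ne (hle i) fun heq => ?_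
      have := hc i
      rw [← heq, coeff_natDegree, leadingCoeff_eq_zero] at this
      exact hi this
  by_cases hs0 : s = 0
  · -- all zero, contradiction with coprimality
    have hall : ∀ i, w i = 0 := fun i => (hz i).resolve_right (by rw [hs0]; exact Nat.not_lt_zero _)
    obtain ⟨u, v, t, huv⟩ := h
    rw [hall 0, hall 1, hall 2] at huv
    simp at huv
  · -- all degrees `< s`, contradiction with the definition of `s`
    have hlt : ∀ i, (w i).natDegree < s := by
      intro i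
      rcases hz i with h1 | h1
      · rw [h1, natDegree_zero]; exact Nat.pos_of_ne_zero hs0
      · exact h1
    have : s < s := by
      conv_lhs => rw [hs]
      unfold htriple
      exact max_lt (hlt 0) (max_lt (hlt 1) (hlt 2))
    exact lt_irrefl _ this

/-- L2 -/
theorem htriple_addSubMap (W : WeierstrassCurve k) [W.IsElliptic] (w : Fin 3 → k[X])
    (h : Cop3 (w 0) (w 1) (w 2)) :
    htriple (MvPolynomial.aeval w (W.addSubMap 0)) (MvPolynomial.aeval w (W.addSubMap 1))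
      (MvPolynomial.aeval w (W.addSubMap 2)) = 2 * htriple (w 0) (w 1) (w 2) := by
  set s := htriple (w 0) (w 1) (w 2) with hs
  have hle : ∀ i, (w i).natDegree ≤ s := bp_natDegree_le_htriple w
  have h0 := bp_natDegree_le_zero W w hle
  have h1 := bp_natDegree_le_one W w hle
  have h2 := bp_natDegree_le_two W w hle
  rw [two_mul]
  apply le_antisymm
  · unfold htriple
    exact max_le h0 (max_le h1 h2)
  · -- some top coefficient is nonzero
    have hv := bp_top_ne_zero w h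
    have hne := WeierstrassCurve.addSubMap_ne_zero W hv
    have : ∃ j : Fin 3, MvPolynomial.eval (fun i => (w i).coeff s) (W.addSubMap j) ≠ 0 := by
      by_contra hcon
      exact hne (funext fun j => by
        by_contra hj
        exact hcon ⟨j, hj⟩)
    obtain ⟨j, hj⟩ := this
    have hcoeff : (MvPolynomial.aeval w (W.addSubMap j)).coeff (s + s) ≠ 0 := by
      fin_cases j
      · rw [Fin.zero_eta, bp_coeff_zero W w hle]; exact hj
      · rw [Fin.mk_one, bp_coeff_one W w hle]; exact hj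
      · rw [show (⟨2, by decide⟩ : Fin 3) = 2 from rfl, bp_coeff_two W w hle]; exact hj
    have hdeg := le_natDegree_of_ne_zero hcoeff
    refine hdeg.trans ?_
    exact bp_natDegree_le_htriple (fun i => MvPolynomial.aeval w (W.addSubMap i)) j

end Fermat.Agent.F1
end MergeWrap_F1_BasePoint

section MergeWrap_F1_AddSub -- from F1/AddSub.lean

/-!
# F1, piece (a): the addition-and-subtraction map does what it claims

For nonsingular points `P`, `Q` of a Weierstrass curve over a field, Mathlib's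
`WeierstrassCurve.addSubMap` evaluated at `P.sym2x Q` (a representative of
`(x(P) x(Q) : x(P) + x(Q) : 1)`) is a nonzero multiple of `(P + Q).sym2x (P - Q)`.
This is the exact identity behind the parallelogram law for heights.
-/

set_option autoImplicit false
set_option linter.unusedSectionVars false
set_option linter.unusedSimpArgs false

namespace Fermat.Agent.F1

open WeierstrassCurve WeierstrassCurve.Affine WeierstrassCurve.Affine.Point

variable {F : Type*} [Field F]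

/-- sum identity, generic case -/
theorem addSub_sum_aux (a₁ a₂ a₃ a₄ a₆ x₁ y₁ x₂ y₂ : F)
    (h₁ : y₁ ^ 2 + a₁ * x₁ * y₁ + a₃ * y₁ = x₁ ^ 3 + a₂ * x₁ ^ 2 + a₄ * x₁ + a₆)
    (h₂ : y₂ ^ 2 + a₁ * x₂ * y₂ + a₃ * y₂ = x₂ ^ 3 + a₂ * x₂ ^ 2 + a₄ * x₂ + a₆) :
    ((y₁ - y₂) ^ 2 + a₁ * (x₁ - x₂) * (y₁ - y₂) - (x₁ - x₂) ^ 2 * (a₂ + x₁ + x₂))
      + ((y₁ + y₂ + a₁ * x₂ + a₃) ^ 2 + a₁ * (x₁ - x₂) * (y₁ + y₂ + a₁ * x₂ + a₃)
          - (x₁ - x₂) ^ 2 * (a₂ + x₁ + x₂))
      = 2 * (x₁ + x₂) * (x₁ * x₂) + (a₁ ^ 2 + 4 * a₂) * (x₁ * x₂)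
          + (2 * a₄ + a₁ * a₃) * (x₁ + x₂) + (a₃ ^ 2 + 4 * a₆) := by
  grind

/-- product identity, generic case -/
theorem addSub_prod_aux (a₁ a₂ a₃ a₄ a₆ x₁ y₁ x₂ y₂ : F)
    (h₁ : y₁ ^ 2 + a₁ * x₁ * y₁ + a₃ * y₁ = x₁ ^ 3 + a₂ * x₁ ^ 2 + a₄ * x₁ + a₆)
    (h₂ : y₂ ^ 2 + a₁ * x₂ * y₂ + a₃ * y₂ = x₂ ^ 3 + a₂ * x₂ ^ 2 + a₄ * x₂ + a₆) :
    ((y₁ - y₂) ^ 2 + a₁ * (x₁ - x₂) * (y₁ - y₂) - (x₁ - x₂) ^ 2 * (a₂ + x₁ + x₂))
      * ((y₁ + y₂ + a₁ * x₂ + a₃) ^ 2 + a₁ * (x₁ - x₂) * (y₁ + y₂ + a₁ * x₂ + a₃)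
          - (x₁ - x₂) ^ 2 * (a₂ + x₁ + x₂))
      = (x₁ - x₂) ^ 2 * ((x₁ * x₂) ^ 2 - (2 * a₄ + a₁ * a₃) * (x₁ * x₂)
          - (a₃ ^ 2 + 4 * a₆) * (x₁ + x₂)
          - (a₁ ^ 2 * a₆ + 4 * a₂ * a₆ - a₁ * a₃ * a₄ + a₂ * a₃ ^ 2 - a₄ ^ 2)) := by
  grind

/-- doubling: `ψ₂²` -/
theorem dbl_den_aux (a₁ a₂ a₃ a₄ a₆ x y : F)
    (h : y ^ 2 + a₁ * x * y + a₃ * y = x ^ 3 + a₂ * x ^ 2 + a₄ * x + a₆) :
    (2 * y + a₁ * x + a₃) ^ 2 = 4 * x ^ 3 + (a₁ ^ 2 + 4 * a₂) * x ^ 2
      + 2 * (2 * a₄ + a₁ * a₃) * x + (a₃ ^ 2 + 4 * a₆) := by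
  grind

/-- doubling: numerator -/
theorem dbl_num_aux (a₁ a₂ a₃ a₄ a₆ x y : F)
    (h : y ^ 2 + a₁ * x * y + a₃ * y = x ^ 3 + a₂ * x ^ 2 + a₄ * x + a₆) :
    (3 * x ^ 2 + 2 * a₂ * x + a₄ - a₁ * y) ^ 2
      + a₁ * (3 * x ^ 2 + 2 * a₂ * x + a₄ - a₁ * y) * (2 * y + a₁ * x + a₃)
      - (a₂ + 2 * x) * (2 * y + a₁ * x + a₃) ^ 2
      = x ^ 4 - (2 * a₄ + a₁ * a₃) * x ^ 2 - 2 * (a₃ ^ 2 + 4 * a₆) * x
          - (a₁ ^ 2 * a₆ + 4 * a₂ * a₆ - a₁ * a₃ * a₄ + a₂ * a₃ ^ 2 - a₄ ^ 2) := by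
  grind

section Eval

variable (W : WeierstrassCurve F)

/-- The three components of `addSubMap` evaluated at a vector. -/
theorem eval_addSubMap_zero (v : Fin 3 → F) :
    MvPolynomial.eval v (W.addSubMap 0) =
      v 0 ^ 2 - W.b₄ * v 0 * v 2 - W.b₆ * v 1 * v 2 - W.b₈ * v 2 ^ 2 := by
  simp [addSubMap]

theorem eval_addSubMap_one (v : Fin 3 → F) :
    MvPolynomial.eval v (W.addSubMap 1) =
      2 * v 1 * v 0 + W.b₂ * v 0 * v 2 + W.b₄ * v 1 * v 2 + W.b₆ * v 2 ^ 2 := by
  simp [addSubMap]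

theorem eval_addSubMap_two (v : Fin 3 → F) :
    MvPolynomial.eval v (W.addSubMap 2) = v 1 ^ 2 - 4 * v 0 * v 2 := by
  simp [addSubMap]

end Eval

end Fermat.Agent.F1

namespace Fermat.Agent.F1

open WeierstrassCurve WeierstrassCurve.Affine WeierstrassCurve.Affine.Point

variable {F : Type*} [Field F] [DecidableEq F] {W : WeierstrassCurve.Affine F}

/-- The curve equation in expanded form. -/
theorem equation_expand {x y : F} (h : W.Equation x y) :
    y ^ 2 + W.a₁ * x * y + W.a₃ * y = x ^ 3 + W.a₂ * x ^ 2 + W.a₄ * x + W.a₆ :=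
  (W.equation_iff x y).mp h

/-- The statement of the add-sub identity for a pair of points. -/
def AddSubProp (P Q : W.Point) : Prop :=
  ∃ c : F, c ≠ 0 ∧ ∀ i, MvPolynomial.eval (P.sym2x Q) (WeierstrassCurve.addSubMap W i) =
    c * (P + Q).sym2x (P - Q) i

theorem addSubProp_zero_left (Q : W.Point) : AddSubProp 0 Q := by
  refine ⟨1, one_ne_zero, fun i => ?_⟩
  rw [zero_add, zero_sub, sym2x_neg_right, one_mul]
  cases Q with
  | zero =>
    fin_cases i <;> simp [eval_addSubMap_zero, eval_addSubMap_one, eval_addSubMap_two, sym2x, ← zero_def]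
  | some x y h =>
    fin_cases i <;>
      simp [eval_addSubMap_zero, eval_addSubMap_one, eval_addSubMap_two, sym2x, ← zero_def] <;> ring

theorem addSubProp_zero_right (P : W.Point) : AddSubProp P 0 := by
  refine ⟨1, one_ne_zero, fun i => ?_⟩
  rw [add_zero, sub_zero, one_mul]
  cases P with
  | zero =>
    fin_cases i <;> simp [eval_addSubMap_zero, eval_addSubMap_one, eval_addSubMap_two, sym2x, ← zero_def]
  | some x y h =>
    fin_cases i <;>
      simp [eval_addSubMap_zero, eval_addSubMap_one, eval_addSubMap_two, sym2x, ← zero_def] <;> ring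


/-- The case `Q = P`. -/
theorem addSubProp_self (P : W.Point) : AddSubProp P P := by
  cases P with
  | zero => exact addSubProp_zero_left _
  | some x y h =>
    have he := equation_expand h.1
    by_cases hy : y = W.negY x y
    · -- 2-torsion
      have hD : 2 * y + W.a₁ * x + W.a₃ = 0 := by
        rw [negY] at hy; linear_combination hy
      have hX : W.a₁ * y - (3 * x ^ 2 + 2 * W.a₂ * x + W.a₄) ≠ 0 := by
        have := (W.nonsingular_iff x y).mp h
        rcases this.2 with h1 | h1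
        · exact sub_ne_zero.mpr h1
        · exact absurd (by linear_combination hD) h1
      have hnum := dbl_num_aux W.a₁ W.a₂ W.a₃ W.a₄ W.a₆ x y he
      rw [hD] at hnum
      refine ⟨(3 * x ^ 2 + 2 * W.a₂ * x + W.a₄ - W.a₁ * y) ^ 2, ?_, fun i => ?_⟩
      · refine pow_ne_zero 2 fun h0 => hX ?_
        linear_combination -h0
      · rw [add_self_of_Y_eq hy, sub_self]
        have hden := dbl_den_aux W.a₁ W.a₂ W.a₃ W.a₄ W.a₆ x y he
        rw [hD] at hden
        fin_cases i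
        · simp only [Fin.zero_eta, eval_addSubMap_zero, sym2x_some_some, sym2x_zero_zero,
            Matrix.cons_val_zero, Matrix.cons_val_one, Matrix.cons_val, WeierstrassCurve.b₄,
            WeierstrassCurve.b₆, WeierstrassCurve.b₈]
          linear_combination -hnum
        · simp only [Fin.mk_one, eval_addSubMap_one, sym2x_some_some, sym2x_zero_zero,
            Matrix.cons_val_zero, Matrix.cons_val_one, Matrix.cons_val, WeierstrassCurve.b₂,
            WeierstrassCurve.b₄, WeierstrassCurve.b₆]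
          linear_combination -hden
        · simp only [Fin.reduceFinMk, eval_addSubMap_two, sym2x_some_some, sym2x_zero_zero,
            Matrix.cons_val_zero, Matrix.cons_val_one, Matrix.cons_val]
          ring
    · -- doubling
      have hD : y - W.negY x y ≠ 0 := sub_ne_zero.mpr hy
      have hD' : y - W.negY x y = 2 * y + W.a₁ * x + W.a₃ := by rw [negY]; ring
      have hnum := dbl_num_aux W.a₁ W.a₂ W.a₃ W.a₄ W.a₆ x y he
      have hden := dbl_den_aux W.a₁ W.a₂ W.a₃ W.a₄ W.a₆ x y he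
      refine ⟨(y - W.negY x y) ^ 2, pow_ne_zero 2 hD, fun i => ?_⟩
      rw [add_self_of_Y_ne hy, sub_self]
      have key : (y - W.negY x y) ^ 2 *
          W.addX x x ((3 * x ^ 2 + 2 * W.a₂ * x + W.a₄ - W.a₁ * y) / (y - W.negY x y)) =
          (3 * x ^ 2 + 2 * W.a₂ * x + W.a₄ - W.a₁ * y) ^ 2
            + W.a₁ * (3 * x ^ 2 + 2 * W.a₂ * x + W.a₄ - W.a₁ * y) * (y - W.negY x y)
            - (W.a₂ + 2 * x) * (y - W.negY x y) ^ 2 := by
        rw [addX]
        field_simp
        ring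
      fin_cases i
      · simp only [Fin.zero_eta, eval_addSubMap_zero, sym2x_some_some, sym2x_some_zero,
          Matrix.cons_val_zero, Matrix.cons_val_one, Matrix.cons_val, WeierstrassCurve.b₄,
          WeierstrassCurve.b₆, WeierstrassCurve.b₈]
        rw [slope_of_Y_ne rfl hy, key, hD']
        linear_combination -hnum
      · simp only [Fin.mk_one, eval_addSubMap_one, sym2x_some_some, sym2x_some_zero,
          Matrix.cons_val_zero, Matrix.cons_val_one, Matrix.cons_val, WeierstrassCurve.b₂,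
          WeierstrassCurve.b₄, WeierstrassCurve.b₆]
        rw [hD']
        linear_combination -hden
      · simp only [Fin.reduceFinMk, eval_addSubMap_two, sym2x_some_some, sym2x_some_zero,
          Matrix.cons_val_zero, Matrix.cons_val_one, Matrix.cons_val]
        ring


/-- The generic case `x(P) ≠ x(Q)`. -/
theorem addSubProp_of_X_ne {x₁ y₁ x₂ y₂ : F} (h₁ : W.Nonsingular x₁ y₁) (h₂ : W.Nonsingular x₂ y₂)
    (hx : x₁ ≠ x₂) : AddSubProp (Point.some x₁ y₁ h₁) (Point.some x₂ y₂ h₂) := by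
  have he₁ := equation_expand h₁.1
  have he₂ := equation_expand h₂.1
  have hd : x₁ - x₂ ≠ 0 := sub_ne_zero.mpr hx
  have hsum := addSub_sum_aux W.a₁ W.a₂ W.a₃ W.a₄ W.a₆ x₁ y₁ x₂ y₂ he₁ he₂
  have hprod := addSub_prod_aux W.a₁ W.a₂ W.a₃ W.a₄ W.a₆ x₁ y₁ x₂ y₂ he₁ he₂
  have keyp : (x₁ - x₂) ^ 2 * W.addX x₁ x₂ ((y₁ - y₂) / (x₁ - x₂)) =
      (y₁ - y₂) ^ 2 + W.a₁ * (x₁ - x₂) * (y₁ - y₂) - (x₁ - x₂) ^ 2 * (W.a₂ + x₁ + x₂) := by
    rw [addX]
    field_simp
    ring
  have keym : (x₁ - x₂) ^ 2 * W.addX x₁ x₂ ((y₁ - W.negY x₂ y₂) / (x₁ - x₂)) =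
      (y₁ + y₂ + W.a₁ * x₂ + W.a₃) ^ 2 + W.a₁ * (x₁ - x₂) * (y₁ + y₂ + W.a₁ * x₂ + W.a₃)
        - (x₁ - x₂) ^ 2 * (W.a₂ + x₁ + x₂) := by
    rw [addX, negY]
    field_simp
    ring
  refine ⟨(x₁ - x₂) ^ 2, pow_ne_zero 2 hd, fun i => ?_⟩
  rw [sub_eq_add_neg (Point.some x₁ y₁ h₁) (Point.some x₂ y₂ h₂), neg_some, add_of_X_ne hx,
    add_of_X_ne hx]
  fin_cases i
  · simp only [Fin.zero_eta, eval_addSubMap_zero, sym2x_some_some,
      Matrix.cons_val_zero, Matrix.cons_val_one, Matrix.cons_val, WeierstrassCurve.b₄,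
      WeierstrassCurve.b₆, WeierstrassCurve.b₈]
    rw [slope_of_X_ne hx, slope_of_X_ne hx]
    have h3 : (x₁ - x₂) ^ 2 * ((x₁ - x₂) ^ 2 *
        (W.addX x₁ x₂ ((y₁ - y₂) / (x₁ - x₂)) *
          W.addX x₁ x₂ ((y₁ - W.negY x₂ y₂) / (x₁ - x₂)))) =
        (x₁ - x₂) ^ 2 * ((x₁ * x₂) ^ 2 - (2 * W.a₄ + W.a₁ * W.a₃) * (x₁ * x₂)
          - (W.a₃ ^ 2 + 4 * W.a₆) * (x₁ + x₂)
          - (W.a₁ ^ 2 * W.a₆ + 4 * W.a₂ * W.a₆ - W.a₁ * W.a₃ * W.a₄ + W.a₂ * W.a₃ ^ 2
              - W.a₄ ^ 2)) := by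
      rw [← hprod, ← keyp, ← keym]
      ring
    have h4 := mul_left_cancel₀ (pow_ne_zero 2 hd) h3
    rw [h4]
    ring
  · simp only [Fin.mk_one, eval_addSubMap_one, sym2x_some_some,
      Matrix.cons_val_zero, Matrix.cons_val_one, Matrix.cons_val, WeierstrassCurve.b₂,
      WeierstrassCurve.b₄, WeierstrassCurve.b₆]
    rw [slope_of_X_ne hx, slope_of_X_ne hx]
    linear_combination -hsum - keyp - keym
  · simp only [Fin.reduceFinMk, eval_addSubMap_two, sym2x_some_some,
      Matrix.cons_val_zero, Matrix.cons_val_one, Matrix.cons_val]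
    ring

/-- Symmetry: the statement for `(P, -Q)` implies the statement for `(P, Q)`. -/
theorem addSubProp_of_neg_right {P Q : W.Point} (h : AddSubProp P (-Q)) : AddSubProp P Q := by
  obtain ⟨c, hc, hi⟩ := h
  refine ⟨c, hc, fun i => ?_⟩
  have := hi i
  rw [sym2x_neg_right, sub_neg_eq_add, ← sub_eq_add_neg, sym2x_comm (P - Q) (P + Q)] at this
  exact this

/-- **The addition-and-subtraction map does what it claims.** For nonsingular points `P`, `Q`
of a Weierstrass curve over a field, `addSubMap` evaluated at `sym2x P Q`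
(a representative of `(x(P)x(Q) : x(P)+x(Q) : 1)`) is a nonzero multiple of
`sym2x (P+Q) (P-Q)`. -/
theorem addSubMap_eval_sym2x (P Q : W.Point) :
    ∃ c : F, c ≠ 0 ∧ ∀ i, MvPolynomial.eval (P.sym2x Q) (WeierstrassCurve.addSubMap W i) =
      c * (P + Q).sym2x (P - Q) i := by
  change AddSubProp P Q
  match P, Q with
  | 0, Q => exact addSubProp_zero_left Q
  | P, 0 => exact addSubProp_zero_right P
  | Point.some x₁ y₁ h₁, Point.some x₂ y₂ h₂ =>
    by_cases hx : x₁ = x₂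
    · rcases X_eq_iff.mp hx with h | h
      · rw [h]; exact addSubProp_self _
      · apply addSubProp_of_neg_right
        rw [h]
        exact addSubProp_self _
    · exact addSubProp_of_X_ne h₁ h₂ hx

end Fermat.Agent.F1
end MergeWrap_F1_AddSub

section MergeWrap_F1_Ht -- from F1/Ht.lean

/-!
# F1 / Ht: naive height of a point of `E(L)` relative to a transcendental `ξ ∈ L` (owner: helper4)

`k` a field, `L ⊇ k` a field, `ξ ∈ L` transcendental over `k`.  A point `Q ∈ E(L)` is *`ξ`-rational in x*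
if its projective x-coordinate `Q.xRep = [x : 1]` (or `[1 : 0]`) is proportional to
`[f(ξ) : g(ξ)]` with `f, g ∈ k[X]` coprime; its height is `max (deg f) (deg g)`.
-/

set_option autoImplicit false

open Polynomial WeierstrassCurve WeierstrassCurve.Affine

namespace Fermat.Agent.F1

variable {k : Type*} [Field k] {L : Type*} [Field L] [Algebra k L]

/-- `[f : g]` (coprime) represents the x-coordinate of `Q` at `ξ`. -/
def XRat {W' : Affine L} (ξ : L) (Q : W'.Point) (f g : k[X]) : Prop :=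
  IsCoprime f g ∧ ∃ c : L, c ≠ 0 ∧ aeval ξ f = c * Q.xRep 0 ∧ aeval ξ g = c * Q.xRep 1

open Classical in
/-- auxiliary: the height of any pair satisfying `p` (junk value `0` if there is none). -/
noncomputable def htAux (p : k[X] → k[X] → Prop) : ℕ :=
  if h : ∃ f g : k[X], p f g then hpair h.choose h.choose_spec.choose else 0

/-- the height of `Q` relative to `ξ` (junk value `0` if the x-coordinate is not in `k(ξ)`). -/
noncomputable def ht (k : Type*) [Field k] {L : Type*} [Field L] [Algebra k L]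
    {W' : Affine L} (ξ : L) (Q : W'.Point) : ℕ :=
  htAux (XRat (k := k) ξ Q)

theorem xRat_cross {W' : Affine L} {ξ : L} (hξ : Transcendental k ξ) {Q : W'.Point}
    {f g f' g' : k[X]} (h : XRat ξ Q f g) (h' : XRat ξ Q f' g') : f * g' = f' * g := by
  obtain ⟨-, c, -, hf, hg⟩ := h
  obtain ⟨-, c', -, hf', hg'⟩ := h'
  apply (transcendental_iff_injective.mp hξ)
  rw [map_mul, map_mul, hf, hg, hf', hg']
  ring

/-- well-definedness (uses L3 for pairs, `hpair_eq_of_prop`). -/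
theorem ht_eq {W' : Affine L} {ξ : L} (hξ : Transcendental k ξ) {Q : W'.Point} {f g : k[X]}
    (h : XRat ξ Q f g) : ht k ξ Q = hpair f g := by
  have hex : ∃ f g : k[X], XRat ξ Q f g := ⟨f, g, h⟩
  unfold ht htAux
  rw [dif_pos hex]
  have h' := hex.choose_spec.choose_spec
  exact hpair_eq_of_prop _ _ _ _ h'.1 h.1 (xRat_cross hξ h' h)

theorem xRat_zero {W' : Affine L} (ξ : L) : XRat (k := k) ξ (0 : W'.Point) 1 0 := by
  refine ⟨isCoprime_one_left, 1, one_ne_zero, ?_, ?_⟩ <;> simp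

theorem ht_zero {W' : Affine L} {ξ : L} (hξ : Transcendental k ξ) :
    ht k ξ (0 : W'.Point) = 0 := by
  rw [ht_eq hξ (xRat_zero ξ)]
  simp [hpair]

theorem xRat_neg_iff {W' : Affine L} (ξ : L) (Q : W'.Point) (f g : k[X]) :
    XRat ξ (-Q) f g ↔ XRat ξ Q f g := by
  simp [XRat]

theorem ht_neg {W' : Affine L} (ξ : L) (Q : W'.Point) : ht k ξ (-Q) = ht k ξ Q := by
  have e : (XRat ξ (-Q) : k[X] → k[X] → Prop) = XRat ξ Q := by
    funext f g
    exact propext (xRat_neg_iff ξ Q f g)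
  unfold ht
  rw [e]

theorem cop3_rev {a b c : k[X]} (h : Cop3 a b c) : Cop3 c b a := by
  obtain ⟨u, v, w, h⟩ := h
  exact ⟨w, v, u, by linear_combination h⟩

theorem htriple_rev (a b c : k[X]) : htriple c b a = htriple a b c := by
  simp only [htriple]
  omega

/-- the `sym2x`-triple of two coprime pairs -/
noncomputable def symTriple (f₁ g₁ f₂ g₂ : k[X]) : Fin 3 → k[X] :=
  ![f₁ * f₂, f₁ * g₂ + g₁ * f₂, g₁ * g₂]

theorem cop3_symTriple {f₁ g₁ f₂ g₂ : k[X]} (h₁ : IsCoprime f₁ g₁) (h₂ : IsCoprime f₂ g₂) :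
    Cop3 (symTriple f₁ g₁ f₂ g₂ 0) (symTriple f₁ g₁ f₂ g₂ 1) (symTriple f₁ g₁ f₂ g₂ 2) := by
  have h := cop3_rev (cop3_sym f₁ g₁ f₂ g₂ h₁ h₂)
  simp only [symTriple, Matrix.cons_val_zero, Matrix.cons_val_one, Matrix.cons_val]
  convert h using 2
  ring

theorem htriple_symTriple {f₁ g₁ f₂ g₂ : k[X]} (h₁ : IsCoprime f₁ g₁) (h₂ : IsCoprime f₂ g₂) :
    htriple (symTriple f₁ g₁ f₂ g₂ 0) (symTriple f₁ g₁ f₂ g₂ 1) (symTriple f₁ g₁ f₂ g₂ 2)
      = hpair f₁ g₁ + hpair f₂ g₂ := by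
  have h := htriple_sym f₁ g₁ f₂ g₂ h₁ h₂
  rw [← htriple_rev] at h
  simp only [symTriple, Matrix.cons_val_zero, Matrix.cons_val_one, Matrix.cons_val]
  rw [← h]
  congr 2
  ring

theorem aeval_symTriple {W' : Affine L} {ξ : L} {P Q : W'.Point} {f₁ g₁ f₂ g₂ : k[X]}
    (hP : XRat ξ P f₁ g₁) (hQ : XRat ξ Q f₂ g₂) :
    ∃ c : L, c ≠ 0 ∧ ∀ i, aeval ξ (symTriple f₁ g₁ f₂ g₂ i) = c * P.sym2x Q i := by
  obtain ⟨-, c₁, hc₁, hf₁, hg₁⟩ := hP
  obtain ⟨-, c₂, hc₂, hf₂, hg₂⟩ := hQ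
  refine ⟨c₁ * c₂, mul_ne_zero hc₁ hc₂, ?_⟩
  intro i
  fin_cases i <;>
    simp [symTriple, Point.sym2x, hf₁, hg₁, hf₂, hg₂] <;> ring

section Par

variable (W : WeierstrassCurve k)

theorem aeval_addSubMap_zero (w : Fin 3 → k[X]) :
    MvPolynomial.aeval w (W.addSubMap 0) =
      w 0 ^ 2 - C W.b₄ * w 0 * w 2 - C W.b₆ * w 1 * w 2 - C W.b₈ * w 2 ^ 2 := by
  simp [addSubMap, Polynomial.algebraMap_eq]

theorem aeval_addSubMap_one (w : Fin 3 → k[X]) :
    MvPolynomial.aeval w (W.addSubMap 1) =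
      2 * w 1 * w 0 + C W.b₂ * w 0 * w 2 + C W.b₄ * w 1 * w 2 + C W.b₆ * w 2 ^ 2 := by
  simp [addSubMap, Polynomial.algebraMap_eq, show (C (2 : k) : k[X]) = 2 from map_ofNat C 2]

theorem aeval_addSubMap_two (w : Fin 3 → k[X]) :
    MvPolynomial.aeval w (W.addSubMap 2) = w 1 ^ 2 - 4 * w 0 * w 2 := by
  simp [addSubMap, Polynomial.algebraMap_eq, show (C (4 : k) : k[X]) = 4 from map_ofNat C 4]

/-- evaluating `addSubMap` of a polynomial triple at `ξ` -/
theorem aeval_aeval_addSubMap (ξ : L) (w : Fin 3 → k[X]) (v : Fin 3 → L) (c : L)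
    (hw : ∀ i, aeval ξ (w i) = c * v i) (i : Fin 3) :
    aeval ξ (MvPolynomial.aeval w (W.addSubMap i))
      = c ^ 2 * MvPolynomial.eval v ((W.map (algebraMap k L)).addSubMap i) := by
  fin_cases i
  · simp only [Fin.zero_eta, aeval_addSubMap_zero, eval_addSubMap_zero, map_sub, map_mul, map_pow,
      aeval_C, hw, WeierstrassCurve.map_b₄, WeierstrassCurve.map_b₆, WeierstrassCurve.map_b₈]
    ring
  · simp only [Fin.mk_one, aeval_addSubMap_one, eval_addSubMap_one, map_add, map_mul, map_pow,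
      aeval_C, hw, WeierstrassCurve.map_b₂, WeierstrassCurve.map_b₄, WeierstrassCurve.map_b₆,
      map_ofNat]
    ring
  · simp only [Fin.reduceFinMk, aeval_addSubMap_two, eval_addSubMap_two, map_sub, map_mul,
      map_pow, hw, map_ofNat]
    ring

end Par

/-- PARALLELOGRAM LAW (from helper88's `AddSub`, L1, L2, L3).
`W'` is the curve over `L`, `W` a model of it over `k`. -/
theorem ht_parallelogram [DecidableEq L] {W' : Affine L} (W : WeierstrassCurve k) [W.IsElliptic]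
    (hW : W.map (algebraMap k L) = W') {ξ : L} (hξ : Transcendental k ξ)
    (P Q : W'.Point) (hP : ∃ f g : k[X], XRat ξ P f g) (hQ : ∃ f g : k[X], XRat ξ Q f g)
    (hs : ∃ f g : k[X], XRat ξ (P + Q) f g) (hd : ∃ f g : k[X], XRat ξ (P - Q) f g) :
    ht k ξ (P + Q) + ht k ξ (P - Q) = 2 * ht k ξ P + 2 * ht k ξ Q := by
  subst hW
  obtain ⟨f₁, g₁, h₁⟩ := hP
  obtain ⟨f₂, g₂, h₂⟩ := hQ
  obtain ⟨f₃, g₃, h₃⟩ := hs
  obtain ⟨f₄, g₄, h₄⟩ := hd
  rw [ht_eq hξ h₁, ht_eq hξ h₂, ht_eq hξ h₃, ht_eq hξ h₄]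
  -- the two triples
  set w := symTriple f₁ g₁ f₂ g₂ with hw
  set w' := symTriple f₃ g₃ f₄ g₄ with hw'
  have cw := cop3_symTriple h₁.1 h₂.1
  have cw' := cop3_symTriple h₃.1 h₄.1
  have hhw := htriple_symTriple h₁.1 h₂.1
  have hhw' := htriple_symTriple h₃.1 h₄.1
  rw [← hw] at cw hhw
  rw [← hw'] at cw' hhw'
  have cΦ := cop3_addSubMap W w cw
  have hΦ := htriple_addSubMap W w cw
  obtain ⟨c, hc, hcw⟩ := aeval_symTriple h₁ h₂
  obtain ⟨c', hc', hcw'⟩ := aeval_symTriple h₃ h₄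
  rw [← hw] at hcw
  rw [← hw'] at hcw'
  obtain ⟨e, he, hev⟩ := addSubMap_eval_sym2x (W := (W.map (algebraMap k L)).toAffine) P Q
  have key : ∀ i, aeval ξ (MvPolynomial.aeval w (W.addSubMap i))
      = c ^ 2 * e * (P + Q).sym2x (P - Q) i := by
    intro i
    rw [aeval_aeval_addSubMap W ξ w (P.sym2x Q) c hcw i, mul_assoc]
    congr 1
    exact hev i
  have hprop : ∀ i j, MvPolynomial.aeval w (W.addSubMap i) * w' j
      = w' i * MvPolynomial.aeval w (W.addSubMap j) := by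
    intro i j
    apply (transcendental_iff_injective.mp hξ)
    rw [map_mul, map_mul, key, key, hcw', hcw']
    ring
  have := htriple_eq_of_prop _ _ _ _ _ _ cΦ cw' (hprop 0 1) (hprop 0 2) (hprop 1 2)
  rw [hΦ, hhw, hhw'] at this
  omega

end Fermat.Agent.F1
end MergeWrap_F1_Ht
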